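import Fermat.Agent.AlmostGoldbach.Singular
import Fermat.Agent.ThreePrimes.Main

/-!
# The mean square of the error for two primes

`∑_{n ≤ X} (∑_{i + j = n} Λ i Λ j - 𝔖₂ n n)² = O (X³ / (log X) ^ e)`: the circle method on the
points `h / (3 X)`, with Bessel's identity on the minor arcs.
-/

set_option autoImplicit false

noncomputable section

namespace FA.AlmostGoldbach

open Finset Complex ArithmeticFunction
open FA.ThreePrimes (eAdd nearDist clip trigSum twist geomSum arc arcCentres centre moebiusR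
  ramanujan unitResidues)
open scoped Real ComplexConjugate

/-- The pairs with sum `n` in `[1, X]`. -/
def pairSum (f : ℕ → ℂ) (X n : ℕ) : ℂ :=
  ∑ i ∈ Icc 1 X, ∑ j ∈ Icc 1 X, if i + j = n then f i * f j else 0

/-- **The square on a translate of the grid.** -/
theorem sum_square_grid (f : ℕ → ℂ) {X M n : ℕ} (hM : 3 * X ≤ M) (hn : n ≤ X) (θ : ℝ) :
    ∑ h ∈ range M, trigSum f X (h / M + θ) ^ 2 * eAdd (-(n * (h / M + θ))) =
      M * pairSum f X n := by
  have e : ∀ x : ℝ, trigSum f X x ^ 2 * eAdd (-(n * x)) = ∑ i ∈ Icc 1 X, ∑ j ∈ Icc 1 X,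
      f i * f j * eAdd ((((i : ℤ) + j - n : ℤ) : ℝ) * x) := by
    intro x
    rw [sq, trigSum, sum_mul_sum, sum_mul]
    simp only [sum_mul]
    refine sum_congr rfl fun i _ => sum_congr rfl fun j _ => ?_
    push_cast
    rw [show ((i : ℝ) + j - n) * x = i * x + j * x + -(n * x) by ring,
      ThreePrimes.eAdd_add, ThreePrimes.eAdd_add]
    ring
  simp only [e]
  rw [sum_comm, pairSum, mul_sum]
  refine sum_congr rfl fun i hi => ?_
  rw [sum_comm, mul_sum]
  refine sum_congr rfl fun j hj => ?_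
  rw [mem_Icc] at hi hj
  simp only [mul_add, ThreePrimes.eAdd_add, ← mul_assoc]
  rw [← sum_mul, ← mul_sum]
  simp only [← mul_div_assoc]
  rw [ThreePrimes.sum_eAdd_grid (by omega)]
  by_cases h : i + j = n
  · rw [if_pos h, show ((i : ℤ) + j - n) = 0 by omega, if_pos (dvd_zero _)]
    simp
    ring
  · rw [if_neg h, if_neg]
    · simp
    · intro hd
      have := Int.le_of_dvd (abs_pos.2 (show ((i : ℤ) + j - n) ≠ 0 by omega)) ((dvd_abs _ _).2 hd)
      have : |((i : ℤ) + j - n)| < M := abs_lt.2 ⟨by omega, by omega⟩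
      omega

/-- **Bessel's identity** for any set of grid points. -/
theorem sum_norm_sq_coeff {M : ℕ} (hM : 0 < M) (S : Finset ℕ) (hS : S ⊆ range M) (g : ℕ → ℂ) :
    ∑ n ∈ range M, ‖∑ h ∈ S, g h * eAdd (-(n * ((h : ℝ) / M)))‖ ^ 2 =
      M * ∑ h ∈ S, ‖g h‖ ^ 2 := by
  have e : ∀ n : ℕ, ((‖∑ h ∈ S, g h * eAdd (-(n * ((h : ℝ) / M)))‖ ^ 2 : ℝ) : ℂ) =
      ∑ h ∈ S, ∑ k ∈ S, g h * conj (g k) * eAdd ((((k : ℤ) - h : ℤ) : ℝ) * n / M) := by
    intro n
    rw [Complex.ofReal_pow, ← Complex.mul_conj', map_sum, sum_mul_sum]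
    refine sum_congr rfl fun i _ => sum_congr rfl fun j _ => ?_
    push_cast
    rw [map_mul, ThreePrimes.conj_eAdd, mul_mul_mul_comm, ← ThreePrimes.eAdd_add]
    ring_nf
  apply Complex.ofReal_injective
  rw [Complex.ofReal_sum, sum_congr rfl fun n _ => e n, Complex.ofReal_mul, Complex.ofReal_sum,
    Complex.ofReal_natCast, mul_sum, sum_comm]
  refine sum_congr rfl fun i hi => ?_
  rw [sum_comm, sum_eq_single i]
  · simp only [sub_self, Int.cast_zero, zero_mul, zero_div, ThreePrimes.eAdd_zero, mul_one,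
      sum_const, card_range, nsmul_eq_mul]
    rw [Complex.ofReal_pow, ← Complex.mul_conj']
  · intro j hj hji
    rw [← mul_sum, ThreePrimes.sum_eAdd_grid hM, if_neg, mul_zero]
    intro hd
    have h1 := mem_range.1 (hS hi)
    have h2 := mem_range.1 (hS hj)
    have := Int.le_of_dvd (abs_pos.2 (show ((j : ℤ) - i) ≠ 0 by omega)) ((dvd_abs _ _).2 hd)
    have : |((j : ℤ) - i)| < M := abs_lt.2 ⟨by omega, by omega⟩
    omega
  · exact fun h => absurd hi h

theorem pairSum_one {X n : ℕ} (hn : 1 ≤ n) (hnX : n ≤ X) :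
    pairSum (fun _ => 1) X n = ((n : ℝ) - 1 : ℝ) := by
  have h1 : ∀ i ∈ Icc 1 X, (∑ j ∈ Icc 1 X, if i + j = n then (1 : ℂ) * 1 else 0) =
      if i < n then 1 else 0 := by
    intro i hi
    rw [mem_Icc] at hi
    split_ifs with h
    · rw [sum_eq_single (n - i)]
      · rw [if_pos (by omega), one_mul]
      · intro j _ hj
        rw [if_neg (by omega)]
      · intro h'
        exact absurd (mem_Icc.2 ⟨by omega, by omega⟩) h'
    · refine sum_eq_zero fun j hj => ?_
      rw [mem_Icc] at hj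
      rw [if_neg (by omega)]
  rw [pairSum, sum_congr rfl h1, sum_boole, show (Icc 1 X).filter (· < n) = Ico 1 n by
    ext; simp; omega, Nat.card_Ico, Nat.cast_sub hn]
  push_cast
  rfl

/-- The main summand. -/
def mainPair (X n : ℕ) (x : ℝ) : ℂ := geomSum X x ^ 2 * eAdd (-(n * x))

theorem sum_mainPair_grid {X M n : ℕ} (hM : 3 * X ≤ M) (hn : n ≤ X) (θ : ℝ) :
    ∑ h ∈ range M, mainPair X n ((h : ℝ) / M + θ) = M * pairSum (fun _ => 1) X n := by
  rw [← sum_square_grid (fun _ => (1 : ℂ)) hM hn θ]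
  refine sum_congr rfl fun h _ => ?_
  simp only [mainPair, geomSum, trigSum, one_mul]
  rfl

theorem sum_sq_five_le (a b c d f : ℝ) :
    (a + b + c + d + f) ^ 2 ≤ 5 * (a ^ 2 + b ^ 2 + c ^ 2 + d ^ 2 + f ^ 2) := by
  nlinarith [sq_nonneg (a - b), sq_nonneg (a - c), sq_nonneg (a - d), sq_nonneg (a - f),
    sq_nonneg (b - c), sq_nonneg (b - d), sq_nonneg (b - f), sq_nonneg (c - d), sq_nonneg (c - f),
    sq_nonneg (d - f)]

theorem inv_totient_le {q : ℕ} (hq : 0 < q) {P : ℕ} (hqP : q ≤ P) :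
    1 / (q.totient : ℝ) ≤ 2 * √(P : ℝ) * (q : ℝ) ^ (-(5 / 4) : ℝ) := by
  have hq0 : (0 : ℝ) < q := Nat.cast_pos.2 hq
  have h := Real.sqrt_le_sqrt (ThreePrimes.inv_totient_sq_le hq)
  rw [one_div, ← inv_pow, Real.sqrt_sq (by positivity), Real.sqrt_mul (by norm_num),
    show (4 : ℝ) = 2 ^ 2 by norm_num, Real.sqrt_sq two_pos.le, Real.sqrt_eq_rpow,
    ← Real.rpow_mul hq0.le] at h
  rw [one_div]
  refine h.trans ?_
  rw [mul_assoc]
  refine mul_le_mul_of_nonneg_left ?_ two_pos.le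
  rw [show (-(3 / 2) : ℝ) * (1 / 2) = 1 / 2 + -(5 / 4) by norm_num, Real.rpow_add hq0,
    ← Real.sqrt_eq_rpow]
  exact mul_le_mul_of_nonneg_right (Real.sqrt_le_sqrt (Nat.cast_le.2 hqP)) (by positivity)

/-- **The mean square**, for large `X`. -/
theorem exists_mean_square_large (e : ℕ) : ∃ (C : ℝ) (X₀ : ℕ), 0 < C ∧ ∀ X : ℕ, X₀ ≤ X →
    ∑ n ∈ Icc 1 X, ‖pairSum (fun i => (Λ i : ℂ)) X n - ((pairSeries n * n : ℝ) : ℂ)‖ ^ 2 ≤
      C * ((X : ℝ) ^ 3 / Real.log X ^ e) := by
  obtain ⟨b, hb⟩ : ∃ b, b = e + 10 := ⟨_, rfl⟩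
  obtain ⟨C₁, hC₁, hmin⟩ := ThreePrimes.exists_minor_le b
  obtain ⟨C₂, hC₂, hmaj⟩ := ThreePrimes.exists_major_approx (2 * b) (7 * b + 2)
  obtain ⟨K, hK, hpow⟩ := ThreePrimes.exists_log_pow_le (6 * b)
  obtain ⟨K', hK', hpow'⟩ := ThreePrimes.exists_log_pow_le (e + 3)
  obtain ⟨Z₁, hZ₁⟩ : ∃ Z₁ : ℝ, Z₁ = 2 * ∑' q : ℕ, (q : ℝ) ^ (-(5 / 4) : ℝ) := ⟨_, rfl⟩
  have hZ₁0 : 0 ≤ Z₁ := hZ₁ ▸ mul_nonneg two_pos.le (tsum_nonneg fun q => by positivity)
  have hPC := pairConst_nonneg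
  refine ⟨5 * (10 * C₁ ^ 2 + (200 * C₂) ^ 2 + (8 * Z₁) ^ 2 + 16 * pairConst ^ 2 +
    16 * pairConst ^ 2 * (K' + 1)), max (⌈(2 * K + 1) ^ 2⌉₊) 8, by positivity, fun X hX => ?_⟩
  have hX8 : 8 ≤ X := le_trans (le_max_right _ _) hX
  have hX1 : (1 : ℝ) ≤ X := by exact_mod_cast (show 1 ≤ X by omega)
  obtain ⟨l, hl⟩ : ∃ l, l = Real.log X := ⟨_, rfl⟩
  have hl2 : 2 ≤ l := by
    rw [hl, Real.le_log_iff_exp_le (by linarith), show (2 : ℝ) = ((2 : ℕ) : ℝ) * 1 by norm_num,
      Real.exp_nat_mul]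
    have h8 : (8 : ℝ) ≤ X := by exact_mod_cast hX8
    refine le_trans ?_ h8
    nlinarith [Real.exp_pos 1, Real.exp_one_lt_d9]
  have hl1 : 1 ≤ l := by linarith
  have hl0 : 0 < l := by linarith
  rw [← hl]
  obtain ⟨R, hR⟩ : ∃ R, R = l ^ (2 * b) := ⟨_, rfl⟩
  have hR1 : 1 ≤ R := hR ▸ one_le_pow₀ hl1
  have hR3 : 2 * R ^ 3 < X := by
    have h1 : (2 * K + 1) ^ 2 ≤ (X : ℝ) :=
      (Nat.le_ceil _).trans (Nat.cast_le.2 (le_trans (le_max_left _ _) hX))
    have h2 : 2 * K < √(X : ℝ) := by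
      rw [Real.lt_sqrt (by positivity)]
      nlinarith
    rw [hR, ← pow_mul, show 2 * b * 3 = 6 * b by ring]
    calc 2 * l ^ (6 * b) ≤ 2 * K * √(X : ℝ) := by
          rw [mul_assoc]
          exact mul_le_mul_of_nonneg_left (hl ▸ hpow X hX1) two_pos.le
      _ < √(X : ℝ) * √(X : ℝ) := mul_lt_mul_of_pos_right h2 (Real.sqrt_pos.2 (by linarith))
      _ = X := Real.mul_self_sqrt (Nat.cast_nonneg X)
  have hRX : R ≤ X := by
    have : R ≤ R ^ 3 := le_self_pow₀ hR1 (by norm_num)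
    linarith
  obtain ⟨P, hP⟩ : ∃ P, P = ⌊R⌋₊ := ⟨_, rfl⟩
  have hPR : (P : ℝ) ≤ R := hP ▸ Nat.floor_le (by linarith)
  have hP0 : 0 < (P : ℝ) := Nat.cast_pos.2 (hP ▸ Nat.floor_pos.2 hR1)
  obtain ⟨M, hM⟩ : ∃ M, M = 3 * X := ⟨_, rfl⟩
  have : NeZero M := ⟨by omega⟩
  have hM' : (M : ℝ) = 3 * X := by rw [hM]; push_cast; ring
  have hM0 : (0 : ℝ) < M := Nat.cast_pos.2 (NeZero.pos M)
  have hlogM : 1 + Real.log M ≤ 3 * l := by
    rw [hM', Real.log_mul (by norm_num) (by linarith), ← hl]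
    have : Real.log 3 ≤ 2 := by
      rw [Real.log_le_iff_le_exp (by norm_num)]
      linarith [Real.add_one_le_exp 2]
    linarith
  obtain ⟨δ, hδ⟩ : ∃ δ, δ = R / X := ⟨_, rfl⟩
  have hδ0 : 0 < δ := by rw [hδ]; positivity
  have hdisj : ((arcCentres P : Finset _) : Set (Σ _ : ℕ, ℕ)).PairwiseDisjoint (arc M δ) := by
    intro z hz w hw hne
    rw [Function.onFun, disjoint_left]
    intro h h1 h2
    rw [arc, mem_filter] at h1 h2
    have h3 := (ThreePrimes.inv_mul_le_nearDist_centre hz hw hne).trans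
      ((ThreePrimes.nearDist_sub_sub_le _ _ _).trans (add_le_add h1.2 h2.2))
    rw [hδ, div_le_iff₀ (by positivity)] at h3
    have h4 : (R / X + R / X) * ((P : ℝ) * P) ≤ (R / X + R / X) * (R * R) :=
      mul_le_mul_of_nonneg_left (mul_le_mul hPR hPR hP0.le (by linarith)) (by positivity)
    have h5 : (R / X + R / X) * (R * R) < 1 := by
      rw [show (R / X + R / X) * (R * R) = 2 * R ^ 3 / X by ring, div_lt_one (by linarith)]
      exact hR3
    linarith
  obtain ⟨minor, hminor⟩ : ∃ m, m = (range M) \ (arcCentres P).biUnion (arc M δ) := ⟨_, rfl⟩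
  obtain ⟨W, hW⟩ : ∃ W : ℕ → ℂ,
      W = fun n : ℕ => ∑ h ∈ minor, twist ((h : ℝ) / M) Λ X ^ 2 * eAdd (-(n * ((h : ℝ) / M))) :=
    ⟨_, rfl⟩
  obtain ⟨E, hE⟩ : ∃ E : ℝ, E = (X : ℝ) ^ 3 / l ^ e := ⟨_, rfl⟩
  rw [← hE]
  have hE0 : 0 ≤ E := by rw [hE]; positivity
  -- the minor arcs in mean square
  have p1 : ∑ n ∈ Icc 1 X, (‖W n‖ / M) ^ 2 ≤ 10 * C₁ ^ 2 * E := by
    simp only [div_pow, ← sum_div]
    rw [div_le_iff₀ (by positivity)]
    refine (sum_le_sum_of_subset_of_nonneg (t := range M) (fun n hn => ?_)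
      fun n _ _ => sq_nonneg _).trans ?_
    · rw [mem_Icc] at hn
      rw [mem_range]
      omega
    rw [hW]
    simp only
    rw [sum_norm_sq_coeff (NeZero.pos M) minor (hminor ▸ sdiff_subset)
      fun h : ℕ => twist ((h : ℝ) / M) Λ X ^ 2]
    obtain ⟨G, hG⟩ : ∃ G, G = C₁ * ((X : ℝ) * l ^ 4 / l ^ b) := ⟨_, rfl⟩
    refine (mul_le_mul_of_nonneg_left (show ∑ h ∈ minor, ‖twist ((h : ℝ) / M) Λ X ^ 2‖ ^ 2 ≤
      G ^ 2 * (M * (6 * X * l)) from (sum_le_sum (g := fun h : ℕ =>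
        G ^ 2 * ‖twist ((h : ℝ) / M) Λ X‖ ^ 2) fun h hh => ?_).trans ?_) hM0.le).trans ?_
    · rw [hminor, mem_sdiff, mem_biUnion] at hh
      rw [norm_pow, sq (_ ^ 2)]
      refine mul_le_mul_of_nonneg_right (pow_le_pow_left₀ (norm_nonneg _) ?_ 2) (sq_nonneg _)
      have := hmin X P ((h : ℝ) / M) (hl ▸ hl1) (hl ▸ hR ▸ hRX) (by rw [hP, hR, hl])
        fun z hz => ?_
      · rwa [← hl, ← hG] at this
      · rw [← hl, ← hR, ← hδ]
        by_contra hle
        exact hh.2 ⟨z, hz, mem_filter.2 ⟨hh.1, not_lt.1 hle⟩⟩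
    · rw [← mul_sum]
      refine mul_le_mul_of_nonneg_left ?_ (sq_nonneg _)
      refine (sum_le_sum_of_subset_of_nonneg (hminor ▸ sdiff_subset)
        fun i _ _ => sq_nonneg _).trans ?_
      simp only [ThreePrimes.twist_eq_trigSum]
      rw [ThreePrimes.sum_norm_sq_grid (fun n => (Λ n : ℂ)) (show X < M by omega)]
      refine mul_le_mul_of_nonneg_left ?_ (Nat.cast_nonneg M)
      refine (sum_le_sum (g := fun n => l * Λ n) fun n hn => ?_).trans ?_
      · rw [mem_Icc] at hn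
        rw [Complex.norm_real, Real.norm_eq_abs, sq_abs, sq, hl]
        exact mul_le_mul_of_nonneg_right (vonMangoldt_le_log.trans
          (Real.log_le_log (Nat.cast_pos.2 hn.1) (Nat.cast_le.2 hn.2))) vonMangoldt_nonneg
      · rw [← mul_sum, mul_comm _ l]
        exact mul_le_mul_of_nonneg_left (ThreePrimes.sum_vonMangoldt_le X) hl0.le
    · have h1 : l ^ 9 / (l ^ b) ^ 2 ≤ 1 / l ^ e := by
        rw [div_le_div_iff₀ (by positivity) (by positivity), one_mul, ← pow_mul, ← pow_add]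
        exact pow_le_pow_right₀ hl1 (by omega)
      calc (M : ℝ) * (G ^ 2 * (M * (6 * X * l)))
          = 6 * C₁ ^ 2 * ((X : ℝ) ^ 3 * (l ^ 9 / (l ^ b) ^ 2)) * (M : ℝ) ^ 2 := by rw [hG]; ring
        _ ≤ 10 * C₁ ^ 2 * ((X : ℝ) ^ 3 * (1 / l ^ e)) * (M : ℝ) ^ 2 := by
            refine mul_le_mul_of_nonneg_right (mul_le_mul ?_ (mul_le_mul_of_nonneg_left h1
              (by positivity)) (by positivity) (by positivity)) (sq_nonneg _)
            linarith [sq_nonneg C₁]
        _ = _ := by rw [hE]; ring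
  -- the pointwise bound
  have p2 : ∀ n ∈ Icc 1 X, ‖pairSum (fun i => (Λ i : ℂ)) X n - ((pairSeries n * n : ℝ) : ℂ)‖ ≤
      ‖W n‖ / M + 200 * C₂ * (X / l ^ (b + 1)) + 8 * Z₁ * (X * l / l ^ b) +
        2 * pairConst * n.divisors.card * (X * ((P + 1 : ℕ) : ℝ) ^ (-(1 / 4) : ℝ)) +
        2 * pairConst * n.divisors.card := by
    intro n hn
    rw [mem_Icc] at hn
    have hn0 : n ≠ 0 := by omega
    obtain ⟨F, hF⟩ : ∃ F : ℕ → ℂ, F = fun h : ℕ =>
        twist ((h : ℝ) / M) Λ X ^ 2 * eAdd (-(n * ((h : ℝ) / M))) := ⟨_, rfl⟩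
    obtain ⟨c, hc⟩ : ∃ c : (Σ _ : ℕ, ℕ) → ℂ, c = fun z =>
        (((moebiusR z.1 / z.1.totient) ^ 2 : ℝ) : ℂ) * eAdd (-(n * centre z)) := ⟨_, rfl⟩
    have htotal : ∑ h ∈ range M, F h = M * pairSum (fun i => (Λ i : ℂ)) X n := by
      rw [← sum_square_grid (fun i => (Λ i : ℂ)) (show 3 * X ≤ M by omega) hn.2 0, hF]
      refine sum_congr rfl fun h _ => ?_
      simp only [add_zero, ThreePrimes.twist_eq_trigSum]
    have hdecomp : ∑ h ∈ range M, F h =
        W n + ∑ z ∈ arcCentres P, ∑ h ∈ arc M δ z, F h := by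
      rw [← sum_biUnion hdisj, show W n = ∑ h ∈ minor, F h by rw [hW, hF], hminor, sum_sdiff]
      exact biUnion_subset.2 fun z _ => filter_subset _ _
    have q2 : ∀ z ∈ arcCentres P, ∀ h ∈ arc M δ z,
        ‖F h - c z * mainPair X n ((h : ℝ) / M + -centre z)‖ ≤
          12 * X * (C₂ * (X / l ^ (7 * b + 2))) := by
      rintro ⟨q, r⟩ hz h hh
      rw [ThreePrimes.mem_arcCentres] at hz
      obtain ⟨⟨hq1, hqP⟩, -, hcop⟩ := hz
      simp only at hq1 hqP hcop
      have : NeZero q := ⟨by omega⟩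
      rw [arc, mem_filter, nearDist] at hh
      obtain ⟨k, hk⟩ : ∃ k, k = round ((h : ℝ) / M - centre ⟨q, r⟩) := ⟨_, rfl⟩
      obtain ⟨β, hβ⟩ : ∃ β, β = (h : ℝ) / M - centre ⟨q, r⟩ - k := ⟨_, rfl⟩
      rw [← hk, ← hβ] at hh
      have hq0 : (q : ℝ) ≠ 0 := Nat.cast_ne_zero.2 (by omega)
      have hα : (h : ℝ) / M = (((r : ℤ) + k * q : ℤ) : ℝ) / q + β := by
        rw [hβ, centre]
        push_cast
        field_simp
        ring
      have hunit : IsUnit (((r : ℤ) + k * q : ℤ) : ZMod q) := by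
        push_cast
        rw [ZMod.natCast_self, mul_zero, add_zero]
        exact (ZMod.isUnit_iff_coprime r q).2 hcop.symm
      have happ := hmaj X q ((r : ℤ) + k * q) β (by omega) hunit
        (by rw [← hl, ← hR]; exact (Nat.cast_le.2 hqP).trans hPR)
        (by
          rw [← hl, ← hR, ← le_div_iff₀ (by linarith), ← hδ]
          exact hh.2)
      rw [← hα, ← hl] at happ
      rw [hF, hc]
      simp only
      rw [mainPair, ← sub_eq_add_neg, ← ThreePrimes.geomSum_sub_intCast X _ k, ← hβ]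
      have e : eAdd (-((n : ℝ) * centre ⟨q, r⟩)) *
          eAdd (-(n * ((h : ℝ) / M - centre ⟨q, r⟩))) = eAdd (-(n * ((h : ℝ) / M))) := by
        rw [← ThreePrimes.eAdd_add]
        ring_nf
      rw [mul_mul_mul_comm, e, ← sub_mul, norm_mul, ThreePrimes.norm_eAdd, mul_one,
        Complex.ofReal_pow, ← mul_pow, sq_sub_sq, norm_mul]
      refine mul_le_mul ((norm_add_le _ _).trans ?_) happ (norm_nonneg _) (by positivity)
      have h1 := ThreePrimes.norm_twist_le ((h : ℝ) / M) X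
      have h2 : ‖((moebiusR q / q.totient : ℝ) : ℂ) * geomSum X β‖ ≤ 6 * X := by
        rw [norm_mul, Complex.norm_real, Real.norm_eq_abs]
        refine le_trans (mul_le_of_le_one_left (norm_nonneg _) ?_) ?_
        · rw [abs_div, Nat.abs_cast]
          exact div_le_one_of_le₀ ((ThreePrimes.abs_moebiusR_le q).trans
            (by exact_mod_cast Nat.totient_pos.2 hq1)) (Nat.cast_nonneg _)
        · refine (norm_sum_le _ _).trans ?_
          simp [ThreePrimes.norm_eAdd]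
          linarith
      linarith
    have hpairs : ((arcCentres P).card : ℝ) ≤ R ^ 2 := by
      have h1 : (arcCentres P).card ≤ P * P := by
        rw [arcCentres, card_sigma]
        refine (sum_le_card_nsmul _ _ P fun q hq => ?_).trans (le_of_eq ?_)
        · rw [ThreePrimes.card_unitResidues]
          exact (Nat.totient_le q).trans (mem_Icc.1 hq).2
        · simp
      refine (Nat.cast_le.2 h1).trans ?_
      push_cast
      rw [sq]
      exact mul_le_mul hPR hPR (Nat.cast_nonneg P) (by linarith)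
    have q3 : ‖∑ z ∈ arcCentres P, ∑ h ∈ arc M δ z,
        (F h - c z * mainPair X n ((h : ℝ) / M + -centre z))‖ ≤
          R ^ 2 * (41 * R * l) * (12 * X * (C₂ * (X / l ^ (7 * b + 2)))) := by
      refine (norm_sum_le _ _).trans ((sum_le_card_nsmul _ _
        (41 * R * l * (12 * X * (C₂ * (X / l ^ (7 * b + 2))))) fun z hz => ?_).trans ?_)
      · refine (norm_sum_le _ _).trans ((sum_le_card_nsmul _ _ _ (q2 z hz)).trans ?_)
        rw [nsmul_eq_mul]
        refine mul_le_mul_of_nonneg_right ((ThreePrimes.card_arc_le hδ0 z).trans ?_)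
          (by positivity)
        have h1 : 4 * (M : ℝ) * δ * (1 + Real.log M) ≤ 12 * R * (3 * l) := by
          refine le_trans (le_of_eq ?_) (mul_le_mul_of_nonneg_left hlogM (by positivity))
          rw [hM', hδ]
          field_simp
          ring
        have h2 : 1 * 1 ≤ R * l := mul_le_mul hR1 hl1 zero_le_one (by linarith)
        linarith
      · rw [nsmul_eq_mul, mul_assoc (R ^ 2)]
        exact mul_le_mul_of_nonneg_right hpairs (by positivity)
    have hcsum : ∑ z ∈ arcCentres P, ‖c z‖ ≤ Z₁ * √(P : ℝ) := by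
      rw [arcCentres, sum_sigma, hZ₁, mul_assoc, mul_comm (∑' q : ℕ, _), ← mul_assoc]
      refine le_trans (sum_le_sum (g := fun q : ℕ =>
        2 * √(P : ℝ) * (q : ℝ) ^ (-(5 / 4) : ℝ)) fun q hq => ?_) ?_
      · rw [mem_Icc] at hq
        refine (sum_le_card_nsmul _ _ (1 / (q.totient : ℝ) ^ 2) fun r _ => ?_).trans ?_
        · rw [hc, norm_mul, ThreePrimes.norm_eAdd, mul_one, Complex.norm_real, Real.norm_eq_abs,
            div_pow, abs_div, abs_pow, abs_pow, Nat.abs_cast]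
          exact div_le_div_of_nonneg_right
            (pow_le_one₀ (abs_nonneg _) (ThreePrimes.abs_moebiusR_le q)) (by positivity)
        · rw [ThreePrimes.card_unitResidues, nsmul_eq_mul]
          refine le_trans (le_of_eq ?_) (inv_totient_le hq.1 hq.2)
          have : (q.totient : ℝ) ≠ 0 := Nat.cast_ne_zero.2 (Nat.totient_pos.2 hq.1).ne'
          field_simp
      · rw [← mul_sum]
        exact mul_le_mul_of_nonneg_left (Summable.sum_le_tsum _ (fun i _ => by positivity)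
          (Real.summable_nat_rpow.2 (by norm_num))) (by positivity)
    have q4 : ∀ z ∈ arcCentres P, ‖∑ h ∈ range M \ arc M δ z,
        mainPair X n ((h : ℝ) / M + -centre z)‖ ≤ 24 * X ^ 2 * l / R := by
      intro z _
      obtain ⟨Z, hZ⟩ : ∃ Z, Z = 1 / (2 * δ) := ⟨_, rfl⟩
      have hZ0 : 0 < Z := by rw [hZ]; positivity
      refine (norm_sum_le _ _).trans ((sum_le_sum (g := fun h : ℕ =>
        Z * clip Z ((h : ℝ) / M - centre z)) fun h hh => ?_).trans ?_)
      · rw [mem_sdiff, arc, mem_filter, not_and, not_le] at hh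
        have hd := hh.2 hh.1
        rw [← sub_eq_add_neg, mainPair, norm_mul, ThreePrimes.norm_eAdd, mul_one, norm_pow, sq]
        have h1 := ThreePrimes.norm_geom_le ((h : ℝ) / M - centre z) 0 X
        have h2 : clip ((X - 0 : ℕ) : ℝ) ((h : ℝ) / M - centre z) ≤
            1 / (2 * nearDist ((h : ℝ) / M - centre z)) :=
          ThreePrimes.clip_le_inv (hδ0.trans hd) le_rfl
        have h3 : 1 / (2 * nearDist ((h : ℝ) / M - centre z)) ≤ Z :=
          hZ ▸ one_div_le_one_div_of_le (by positivity) (by linarith)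
        have h4 : clip Z ((h : ℝ) / M - centre z) =
            1 / (2 * nearDist ((h : ℝ) / M - centre z)) := by
          rw [clip, if_neg (by linarith), min_eq_right h3]
        rw [h4]
        have h5 : ‖geomSum X ((h : ℝ) / M - centre z)‖ ≤
            1 / (2 * nearDist ((h : ℝ) / M - centre z)) := h1.trans h2
        exact mul_le_mul (h5.trans h3) h5 (norm_nonneg _) hZ0.le
      · rw [← mul_sum]
        refine (mul_le_mul_of_nonneg_left ((sum_le_sum_of_subset_of_nonneg sdiff_subset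
          fun i _ _ => ThreePrimes.clip_nonneg hZ0.le _).trans
            (ThreePrimes.sum_clip_grid_le (centre z) hZ0.le)) hZ0.le).trans ?_
        have hZN : Z = X / (2 * R) := by
          rw [hZ, hδ]
          field_simp
        rw [hZN]
        calc (X : ℝ) / (2 * R) * (5 * (X / (2 * R)) + 2 * M * (1 + Real.log M))
            ≤ (X : ℝ) / (2 * R) * (5 * (X / 2) * l + 2 * (3 * X) * (3 * l)) := by
              refine mul_le_mul_of_nonneg_left (add_le_add ?_ ?_) (by positivity)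
              · have h2 : (X : ℝ) / (2 * R) ≤ X / 2 :=
                  div_le_div_of_nonneg_left (Nat.cast_nonneg X) two_pos (by linarith)
                calc 5 * ((X : ℝ) / (2 * R)) ≤ 5 * (X / 2) * 1 := by linarith
                  _ ≤ _ := mul_le_mul_of_nonneg_left hl1 (by positivity)
              · rw [← hM']
                exact mul_le_mul_of_nonneg_left hlogM (by positivity)
          _ = 41 / 4 * ((X : ℝ) ^ 2 * l / R) := by field_simp; ring
          _ ≤ _ := by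
              have : 0 ≤ (X : ℝ) ^ 2 * l / R := by positivity
              rw [show 24 * (X : ℝ) ^ 2 * l / R = 24 * ((X : ℝ) ^ 2 * l / R) by ring]
              linarith
    have q5 : ‖∑ z ∈ arcCentres P, c z *
        ∑ h ∈ range M \ arc M δ z, mainPair X n ((h : ℝ) / M + -centre z)‖ ≤
          Z₁ * √(P : ℝ) * (24 * X ^ 2 * l / R) := by
      refine (norm_sum_le _ _).trans ((sum_le_sum fun z hz => ?_).trans
        ((sum_mul _ _ _).ge.trans (mul_le_mul_of_nonneg_right hcsum (by positivity))))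
      rw [norm_mul]
      exact mul_le_mul_of_nonneg_left (q4 z hz) (norm_nonneg _)
    have hcval : ∑ z ∈ arcCentres P, c z = ((∑ q ∈ Icc 1 P, pairTerm n q : ℝ) : ℂ) := by
      rw [arcCentres, sum_sigma, Complex.ofReal_sum]
      refine sum_congr rfl fun q hq => ?_
      rw [mem_Icc] at hq
      rw [hc]
      simp only
      rw [← mul_sum, pairTerm_apply, Complex.ofReal_div, Complex.ofReal_mul,
        ThreePrimes.ramanujan_eq hq.1, div_pow, Complex.ofReal_div]
      rw [sum_congr rfl fun r _ => show eAdd (-((n : ℝ) * centre ⟨q, r⟩)) =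
        eAdd (((-n : ℤ) : ℝ) * r / q) by simp only [centre]; push_cast; ring_nf]
      push_cast
      ring
    obtain ⟨S, hS⟩ : ∃ S, S = ∑ q ∈ Icc 1 P, pairTerm n q := ⟨_, rfl⟩
    have hJ := pairSum_one hn.1 hn.2
    have hident : ∑ h ∈ range M, F h -
        (M : ℂ) * pairSum (fun _ => 1) X n * ∑ z ∈ arcCentres P, c z =
        W n + ∑ z ∈ arcCentres P, ∑ h ∈ arc M δ z,
            (F h - c z * mainPair X n ((h : ℝ) / M + -centre z)) -
          ∑ z ∈ arcCentres P, c z *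
            ∑ h ∈ range M \ arc M δ z, mainPair X n ((h : ℝ) / M + -centre z) := by
      have h1 : ∀ z ∈ arcCentres P, (M : ℂ) * pairSum (fun _ => 1) X n * c z =
          ∑ h ∈ arc M δ z, c z * mainPair X n ((h : ℝ) / M + -centre z) +
            c z * ∑ h ∈ range M \ arc M δ z, mainPair X n ((h : ℝ) / M + -centre z) := by
        intro z _
        rw [← mul_sum, ← mul_add, add_comm (∑ h ∈ arc M δ z, _), sum_sdiff
          (show arc M δ z ⊆ range M from filter_subset _ _),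
          sum_mainPair_grid (show 3 * X ≤ M by omega) hn.2]
        ring
      rw [mul_sum, sum_congr rfl h1, sum_add_distrib, hdecomp]
      simp only [sum_sub_distrib]
      ring
    have hmain : ‖pairSum (fun i => (Λ i : ℂ)) X n - ((((n : ℝ) - 1) * S : ℝ) : ℂ)‖ ≤
        ‖W n‖ / M + 200 * C₂ * (X / l ^ (b + 1)) + 8 * Z₁ * (X * l / l ^ b) := by
      refine le_of_mul_le_mul_left ?_ hM0
      rw [← Complex.norm_natCast M, ← norm_mul, mul_sub, Complex.ofReal_mul, ← hJ, ← mul_assoc,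
        hS, ← hcval, ← htotal, hident, Complex.norm_natCast]
      refine (norm_sub_le _ _).trans ((add_le_add ((norm_add_le _ _).trans (add_le_add le_rfl q3))
        q5).trans ?_)
      rw [mul_add, mul_add, mul_div_cancel₀ _ hM0.ne']
      refine add_le_add (add_le_add le_rfl ?_) ?_
      · rw [hR, hM']
        calc (l ^ (2 * b)) ^ 2 * (41 * l ^ (2 * b) * l) * (12 * X * (C₂ * (X / l ^ (7 * b + 2))))
            = 492 * C₂ * (X : ℝ) ^ 2 * ((l ^ (2 * b)) ^ 3 * l / l ^ (7 * b + 2)) := by ring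
          _ = 492 * C₂ * (X : ℝ) ^ 2 * (1 / l ^ (b + 1)) := by
              congr 1
              rw [div_eq_div_iff (by positivity) (by positivity), one_mul, ← pow_mul, ← pow_succ,
                ← pow_add]
              congr 1
              ring
          _ ≤ 600 * C₂ * (X : ℝ) ^ 2 * (1 / l ^ (b + 1)) := by gcongr; norm_num
          _ = _ := by ring
      · have h1 : √(P : ℝ) ≤ l ^ b := by
          refine (Real.sqrt_le_sqrt hPR).trans (le_of_eq ?_)
          rw [hR, pow_mul', Real.sqrt_sq (by positivity)]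
        rw [hM']
        calc Z₁ * √(P : ℝ) * (24 * (X : ℝ) ^ 2 * l / R)
            ≤ Z₁ * l ^ b * (24 * (X : ℝ) ^ 2 * l / R) := by gcongr
          _ = _ := by rw [hR, pow_mul']; field_simp; ring
    have hst := abs_pairSeries_sub_le hn0 P
    rw [← hS] at hst
    have hcard : (0 : ℝ) ≤ n.divisors.card := Nat.cast_nonneg _
    rw [show pairSum (fun i => (Λ i : ℂ)) X n - ((pairSeries n * n : ℝ) : ℂ) =
      (pairSum (fun i => (Λ i : ℂ)) X n - ((((n : ℝ) - 1) * S : ℝ) : ℂ)) +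
        ((((n : ℝ) - 1) * (S - pairSeries n) - pairSeries n : ℝ) : ℂ) by push_cast; ring]
    refine (norm_add_le _ _).trans ?_
    rw [Complex.norm_real, Real.norm_eq_abs]
    refine (add_le_add hmain ((abs_sub _ _).trans (add_le_add
      (b := (X : ℝ) * (pairConst * n.divisors.card * ((P + 1 : ℕ) : ℝ) ^ (-(1 / 4) : ℝ))) ?_
      (abs_pairSeries_le hn0)))).trans ?_
    · rw [abs_mul, abs_sub_comm S]
      refine mul_le_mul ?_ hst (abs_nonneg _) (Nat.cast_nonneg X)
      have h1 : (1 : ℝ) ≤ n := by exact_mod_cast hn.1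
      have h2 : (n : ℝ) ≤ X := Nat.cast_le.2 hn.2
      rw [abs_of_nonneg (by linarith)]
      linarith
    · have h1 : (0 : ℝ) ≤ pairConst * n.divisors.card *
          ((X : ℝ) * ((P + 1 : ℕ) : ℝ) ^ (-(1 / 4) : ℝ)) := by positivity
      have h2 : (0 : ℝ) ≤ pairConst * n.divisors.card := by positivity
      linarith
  -- assembly
  refine (sum_le_sum fun n hn => (pow_le_pow_left₀ (norm_nonneg _) (p2 n hn) 2).trans
    (sum_sq_five_le _ _ _ _ _)).trans ?_
  rw [← mul_sum, sum_add_distrib, sum_add_distrib, sum_add_distrib, sum_add_distrib]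
  have hcard : ((Icc 1 X).card : ℝ) = X := by rw [Nat.card_Icc, Nat.add_sub_cancel]
  have s2 : ∑ _n ∈ Icc 1 X, (200 * C₂ * (X / l ^ (b + 1))) ^ 2 ≤ (200 * C₂) ^ 2 * E := by
    rw [sum_const, nsmul_eq_mul, hcard, hE]
    calc (X : ℝ) * (200 * C₂ * (X / l ^ (b + 1))) ^ 2
        = (200 * C₂) ^ 2 * ((X : ℝ) ^ 3 / (l ^ (b + 1)) ^ 2) := by ring
      _ ≤ _ := by
          refine mul_le_mul_of_nonneg_left (div_le_div_of_nonneg_left (by positivity)
            (by positivity) ?_) (sq_nonneg _)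
          rw [← pow_mul]
          exact pow_le_pow_right₀ hl1 (by omega)
  have s3 : ∑ _n ∈ Icc 1 X, (8 * Z₁ * (X * l / l ^ b)) ^ 2 ≤ (8 * Z₁) ^ 2 * E := by
    rw [sum_const, nsmul_eq_mul, hcard, hE]
    calc (X : ℝ) * (8 * Z₁ * (X * l / l ^ b)) ^ 2
        = (8 * Z₁) ^ 2 * ((X : ℝ) ^ 3 * (l ^ 2 / (l ^ b) ^ 2)) := by ring
      _ ≤ _ := by
          refine mul_le_mul_of_nonneg_left ?_ (sq_nonneg _)
          rw [div_eq_mul_one_div ((X : ℝ) ^ 3)]
          refine mul_le_mul_of_nonneg_left ?_ (by positivity)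
          rw [div_le_div_iff₀ (by positivity) (by positivity), one_mul, ← pow_mul, ← pow_add]
          exact pow_le_pow_right₀ hl1 (by omega)
  have hdiv : ∑ n ∈ Icc 1 X, (n.divisors.card : ℝ) ^ 2 ≤ 4 * X * l ^ 3 := by
    refine (ThreePrimes.sum_card_divisors_sq_le X).trans ?_
    rw [ThreePrimes.logOne, ← hl]
    have := pow_le_pow_left₀ (by linarith) (show 1 + l ≤ 5 / 4 * (1 + 1 / 5) * l by linarith) 3
    have h3 := mul_le_mul_of_nonneg_left this (Nat.cast_nonneg (α := ℝ) X)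
    have : (0 : ℝ) ≤ (X : ℝ) * l ^ 3 := by positivity
    nlinarith
  have s4 : ∑ n ∈ Icc 1 X,
      (2 * pairConst * n.divisors.card * (X * ((P + 1 : ℕ) : ℝ) ^ (-(1 / 4) : ℝ))) ^ 2 ≤
        16 * pairConst ^ 2 * E := by
    obtain ⟨t, ht⟩ : ∃ t : ℝ, t = ((P + 1 : ℕ) : ℝ) ^ (-(1 / 4) : ℝ) := ⟨_, rfl⟩
    rw [← ht]
    have ht2 : t ^ 2 ≤ 1 / l ^ b := by
      have h1 : R ≤ ((P + 1 : ℕ) : ℝ) := by
        push_cast
        exact (hP ▸ Nat.lt_floor_add_one R).le
      rw [ht, ← Real.rpow_natCast, ← Real.rpow_mul (Nat.cast_nonneg _)]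
      refine (Real.rpow_le_rpow_of_nonpos (by linarith) h1 (by norm_num)).trans (le_of_eq ?_)
      rw [hR, one_div (l ^ b), ← Real.rpow_natCast, ← Real.rpow_mul hl0.le, ← Real.rpow_natCast,
        ← Real.rpow_neg hl0.le]
      push_cast
      ring_nf
    calc ∑ n ∈ Icc 1 X, (2 * pairConst * n.divisors.card * (X * t)) ^ 2
        = 4 * pairConst ^ 2 * (X : ℝ) ^ 2 * t ^ 2 *
            ∑ n ∈ Icc 1 X, (n.divisors.card : ℝ) ^ 2 := by
          rw [mul_sum]
          exact sum_congr rfl fun n _ => by ring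
      _ ≤ 4 * pairConst ^ 2 * (X : ℝ) ^ 2 * (1 / l ^ b) * (4 * X * l ^ 3) := by gcongr
      _ = 16 * pairConst ^ 2 * (X : ℝ) ^ 3 * (l ^ 3 / l ^ b) := by ring
      _ ≤ 16 * pairConst ^ 2 * (X : ℝ) ^ 3 * (1 / l ^ e) := by
          refine mul_le_mul_of_nonneg_left ?_ (by positivity)
          rw [div_le_div_iff₀ (by positivity) (by positivity), one_mul, ← pow_add]
          exact pow_le_pow_right₀ hl1 (by omega)
      _ = _ := by rw [hE]; ring
  have s5 : ∑ n ∈ Icc 1 X, (2 * pairConst * n.divisors.card : ℝ) ^ 2 ≤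
      16 * pairConst ^ 2 * (K' + 1) * E := by
    have h1 : (X : ℝ) * l ^ (e + 3) ≤ (K' + 1) * (X : ℝ) ^ 3 := by
      refine (mul_le_mul_of_nonneg_left (hl ▸ hpow' X hX1) (Nat.cast_nonneg X)).trans ?_
      have h2 : √(X : ℝ) ≤ (X : ℝ) ^ 2 := by
        rw [Real.sqrt_le_left (sq_nonneg _), ← pow_mul]
        exact le_self_pow₀ hX1 (by norm_num)
      calc (X : ℝ) * (K' * √(X : ℝ)) ≤ X * ((K' + 1) * (X : ℝ) ^ 2) := by gcongr; linarith
        _ = _ := by ring
    calc ∑ n ∈ Icc 1 X, (2 * pairConst * n.divisors.card : ℝ) ^ 2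
        = 4 * pairConst ^ 2 * ∑ n ∈ Icc 1 X, (n.divisors.card : ℝ) ^ 2 := by
          rw [mul_sum]
          exact sum_congr rfl fun n _ => by ring
      _ ≤ 4 * pairConst ^ 2 * (4 * X * l ^ 3) := by gcongr
      _ = 16 * pairConst ^ 2 * ((X : ℝ) * l ^ (e + 3) / l ^ e) := by rw [pow_add]; field_simp; ring
      _ ≤ 16 * pairConst ^ 2 * ((K' + 1) * (X : ℝ) ^ 3 / l ^ e) := by gcongr
      _ = _ := by rw [hE]; ring
  refine (mul_le_mul_of_nonneg_left (add_le_add (add_le_add (add_le_add (add_le_add p1 s2) s3) s4)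
    s5) (by norm_num)).trans (le_of_eq ?_)
  ring

end FA.AlmostGoldbach
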