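import Fermat.Agent.AlmostGoldbach.Circle

/-!
# Almost all even numbers are sums of two primes

The mean square for all `X`, the exceptional sets, primes in arithmetic progression of length
three, and the number of representations of an odd number by three primes.
-/

set_option autoImplicit false

noncomputable section

namespace FA.AlmostGoldbach

open Finset ArithmeticFunction
open FA.ThreePrimes (powerPart triple)

/-- Two weights on the pairs with sum `n`. -/
def pairW (n : ℕ) : ℝ := ∑ i ∈ Icc 1 (n - 1), Λ i * Λ (n - i)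

/-- The number of `p` with `p` and `n - p` prime. -/
def goldbachCount (n : ℕ) : ℕ := ((Icc 1 n).filter fun p => p.Prime ∧ (n - p).Prime).card

theorem pairSum_cast {X n : ℕ} (hn : n ≤ X) :
    pairSum (fun i => (Λ i : ℂ)) X n = (pairW n : ℂ) := by
  rw [pairW, Complex.ofReal_sum, pairSum]
  symm
  refine sum_subset_zero_on_sdiff (Icc_subset_Icc_right (by omega)) (fun i hi => ?_) fun i hi => ?_
  · rw [mem_sdiff, mem_Icc, mem_Icc] at hi
    refine sum_eq_zero fun j hj => ?_
    rw [mem_Icc] at hj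
    rw [if_neg (by omega)]
  · rw [mem_Icc] at hi
    rw [sum_eq_single (n - i), if_pos (by omega), Complex.ofReal_mul]
    · intro j _ hj
      rw [if_neg (by omega)]
    · intro h
      exact absurd (mem_Icc.2 ⟨by omega, by omega⟩) h

/-- **The mean square.** -/
theorem exists_mean_square (e : ℕ) : ∃ C : ℝ, 0 < C ∧ ∀ X : ℕ, 2 ≤ X →
    ∑ n ∈ Icc 1 X, (pairW n - pairSeries n * n) ^ 2 ≤ C * ((X : ℝ) ^ 3 / Real.log X ^ e) := by
  obtain ⟨C, X₀, hC, h⟩ := exists_mean_square_large e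
  obtain ⟨S₀, hS₀⟩ : ∃ S₀, S₀ = ∑ n ∈ Icc 1 X₀, (pairW n - pairSeries n * n) ^ 2 := ⟨_, rfl⟩
  obtain ⟨L, hL⟩ : ∃ L : ℝ, L = (Real.log X₀ + 1) ^ e := ⟨_, rfl⟩
  have hS0 : 0 ≤ S₀ := hS₀ ▸ sum_nonneg fun n _ => sq_nonneg _
  have hL0 : 0 < L := hL ▸ pow_pos (by linarith [Real.log_natCast_nonneg X₀]) e
  refine ⟨C + S₀ * L, by positivity, fun X hX => ?_⟩
  have hl : 0 < Real.log X := Real.log_pos (by exact_mod_cast hX)
  obtain ⟨E, hE⟩ : ∃ E : ℝ, E = (X : ℝ) ^ 3 / Real.log X ^ e := ⟨_, rfl⟩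
  rw [← hE]
  have hE0 : 0 ≤ E := by rw [hE]; positivity
  rcases le_or_gt X₀ X with hle | hlt
  · have h1 := h X hle
    rw [← hE] at h1
    refine (le_of_eq_of_le (sum_congr rfl fun n hn => ?_) h1).trans ?_
    · rw [pairSum_cast (mem_Icc.1 hn).2, ← Complex.ofReal_sub, Complex.norm_real,
        Real.norm_eq_abs, sq_abs]
    · have : 0 ≤ S₀ * L * E := by positivity
      linarith
  · have h1 : ∑ n ∈ Icc 1 X, (pairW n - pairSeries n * n) ^ 2 ≤ S₀ := hS₀ ▸
      sum_le_sum_of_subset_of_nonneg (Icc_subset_Icc_right hlt.le) fun n _ _ => sq_nonneg _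
    have h3 : 1 ≤ L * E := by
      rw [hE, mul_div_assoc', le_div_iff₀ (by positivity), one_mul]
      refine le_trans ?_ (le_mul_of_one_le_right hL0.le ?_)
      · refine hL ▸ pow_le_pow_left₀ hl.le ?_ e
        linarith [Real.log_le_log (show (0 : ℝ) < X by positivity) (Nat.cast_le.2 hlt.le :
          (X : ℝ) ≤ X₀)]
      · exact one_le_pow₀ (by exact_mod_cast (show 1 ≤ X by omega))
    have h4 := mul_le_mul_of_nonneg_left h3 hS0
    have : 0 ≤ C * E := by positivity
    linarith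

open scoped Classical in
/-- The `n ≤ X` with an error above `n / (log X) ^ A`. -/
def largeError (A X : ℕ) : Finset ℕ :=
  (Icc 1 X).filter fun n : ℕ => (n : ℝ) / Real.log X ^ A < |pairW n - pairSeries n * n|

/-- **Few large errors.** -/
theorem exists_card_largeError_le (A : ℕ) : ∃ C : ℝ, 0 < C ∧ ∀ X : ℕ, 2 ≤ X →
    ((largeError A X).card : ℝ) ≤ C * ((X : ℝ) / Real.log X ^ A) := by
  classical
  obtain ⟨C, hC, h⟩ := exists_mean_square (5 * A)
  refine ⟨C + 1, by positivity, fun X hX => ?_⟩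
  have hl : 0 < Real.log X := Real.log_pos (by exact_mod_cast hX)
  obtain ⟨T, hT⟩ : ∃ T : ℝ, T = (X : ℝ) / Real.log X ^ A := ⟨_, rfl⟩
  have hT0 : 0 < T := by rw [hT]; positivity
  rw [← hT, ← card_filter_add_card_filter_not (fun n : ℕ => (n : ℝ) ≤ T) (s := largeError A X),
    Nat.cast_add, add_mul, one_mul, add_comm]
  refine add_le_add ?_ ?_
  · obtain ⟨S, hS⟩ : ∃ S, S = (largeError A X).filter fun n : ℕ => ¬ (n : ℝ) ≤ T := ⟨_, rfl⟩
    rw [← hS]
    have h1 : (S.card : ℝ) * (T / Real.log X ^ A) ^ 2 ≤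
        ∑ n ∈ Icc 1 X, (pairW n - pairSeries n * n) ^ 2 := by
      refine le_trans ?_ (sum_le_sum_of_subset_of_nonneg (hS ▸ (filter_subset _ _).trans
        (filter_subset _ _)) fun n _ _ => sq_nonneg _)
      rw [← nsmul_eq_mul]
      refine card_nsmul_le_sum _ _ _ fun n hn => ?_
      rw [hS, largeError, mem_filter, mem_filter, not_le] at hn
      rw [← sq_abs (pairW n - pairSeries n * n)]
      exact pow_le_pow_left₀ (by positivity)
        ((div_le_div_of_nonneg_right hn.2.le (by positivity)).trans hn.1.2.le) 2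
    have h2 := h1.trans (h X hX)
    rw [← le_div_iff₀ (by positivity)] at h2
    refine h2.trans (le_of_eq ?_)
    rw [hT]
    field_simp
    ring
  · refine le_trans (Nat.cast_le.2 (card_le_card (t := Icc 1 ⌊T⌋₊) fun n hn => ?_)) ?_
    · rw [largeError, mem_filter, mem_filter, mem_Icc] at hn
      exact mem_Icc.2 ⟨hn.1.1.1, Nat.le_floor hn.2⟩
    · rw [Nat.card_Icc, Nat.add_sub_cancel]
      exact Nat.floor_le hT0.le

theorem pairW_le {X n : ℕ} (hn : 1 ≤ n) (hnX : n ≤ X) :
    pairW n ≤ goldbachCount n * Real.log n ^ 2 + 4 * √(X : ℝ) * Real.log X ^ 2 := by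
  obtain ⟨l, hl⟩ : ∃ l, l = Real.log X := ⟨_, rfl⟩
  rw [← hl]
  have hl0 : 0 ≤ l := hl ▸ Real.log_natCast_nonneg X
  have hΛ : ∀ i : ℕ, 1 ≤ i → i ≤ n → Λ i ≤ Real.log n := fun i h1 h2 =>
    vonMangoldt_le_log.trans (Real.log_le_log (Nat.cast_pos.2 h1) (Nat.cast_le.2 h2))
  have hnl : Real.log n ≤ l := hl ▸ Real.log_le_log (Nat.cast_pos.2 hn) (Nat.cast_le.2 hnX)
  have hpp : ∑ i ∈ Icc 1 (n - 1), powerPart i ≤ 2 * √(X : ℝ) * l :=
    (sum_le_sum_of_subset_of_nonneg (Icc_subset_Icc_right (by omega))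
      fun i _ _ => ThreePrimes.powerPart_nonneg i).trans
        (hl ▸ ThreePrimes.sum_powerPart_le (show 1 ≤ X by omega))
  have hrefl : ∑ i ∈ Icc 1 (n - 1), powerPart (n - i) = ∑ i ∈ Icc 1 (n - 1), powerPart i := by
    refine sum_nbij' (fun i => n - i) (fun i => n - i) ?_ ?_ ?_ ?_ fun i _ => rfl <;>
      intro i hi <;> simp only [mem_Icc] at * <;> omega
  refine (sum_le_sum (g := fun i => (if i.Prime ∧ (n - i).Prime then Real.log n ^ 2 else 0) +
    (l * powerPart i + l * powerPart (n - i))) fun i hi => ?_).trans ?_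
  · rw [mem_Icc] at hi
    have h1 := hΛ i hi.1 (by omega)
    have h2 := hΛ (n - i) (by omega) (by omega)
    have e1 := mul_nonneg hl0 (ThreePrimes.powerPart_nonneg i)
    have e2 := mul_nonneg hl0 (ThreePrimes.powerPart_nonneg (n - i))
    by_cases hi' : i.Prime
    · by_cases hj : (n - i).Prime
      · rw [if_pos ⟨hi', hj⟩]
        have := mul_le_mul h1 h2 vonMangoldt_nonneg (Real.log_natCast_nonneg n)
        rw [← sq] at this
        linarith
      · rw [if_neg fun h => hj h.2, show powerPart (n - i) = Λ (n - i) from if_neg hj]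
        have := mul_le_mul_of_nonneg_right (h1.trans hnl) (vonMangoldt_nonneg (n := n - i))
        linarith
    · rw [if_neg fun h => hi' h.1, show powerPart i = Λ i from if_neg hi']
      have := mul_le_mul_of_nonneg_left (h2.trans hnl) (vonMangoldt_nonneg (n := i))
      linarith
  · rw [sum_add_distrib, sum_add_distrib, ← mul_sum, ← mul_sum, hrefl, sum_ite, sum_const_zero,
      add_zero, sum_const, nsmul_eq_mul]
    refine add_le_add (mul_le_mul_of_nonneg_right (Nat.cast_le.2 (card_le_card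
      (filter_subset_filter _ (Icc_subset_Icc_right (by omega))))) (sq_nonneg _)) ?_
    have := mul_le_mul_of_nonneg_left hpp hl0
    linarith

open scoped Classical in
/-- The even `n ≤ X` with fewer than `n / (8 (log n) ^ 2)` representations. -/
def fewPairs (X : ℕ) : Finset ℕ :=
  (Icc 1 X).filter fun n : ℕ => Even n ∧ (goldbachCount n : ℝ) * Real.log n ^ 2 < n / 8

/-- **Few even numbers with few representations.** -/
theorem exists_card_fewPairs_le (A : ℕ) : ∃ C : ℝ, 0 < C ∧ ∀ X : ℕ, 2 ≤ X →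
    ((fewPairs X).card : ℝ) ≤ C * ((X : ℝ) / Real.log X ^ A) := by
  classical
  obtain ⟨C, hC, h⟩ := exists_card_largeError_le (A + 1)
  obtain ⟨K, hK, hpow⟩ := ThreePrimes.exists_log_pow_le (A + 3)
  refine ⟨C + 1 + (32 * K + 5) ^ A, by positivity, fun X hX => ?_⟩
  obtain ⟨l, hl⟩ : ∃ l, l = Real.log X := ⟨_, rfl⟩
  rw [← hl]
  have hl0 : 0 < l := hl ▸ Real.log_pos (by exact_mod_cast hX)
  obtain ⟨T, hT⟩ : ∃ T : ℝ, T = (X : ℝ) / l ^ A := ⟨_, rfl⟩
  rw [← hT]
  have hT0 : 0 < T := by rw [hT]; positivity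
  rw [add_mul, add_mul, one_mul]
  rcases le_or_gt l (32 * K + 5) with hsmall | hbig
  · refine le_trans ?_ (le_add_of_nonneg_left (by positivity))
    refine (Nat.cast_le.2
      ((card_le_card (filter_subset _ _)).trans_eq (Nat.card_Icc 1 X))).trans ?_
    rw [Nat.add_sub_cancel]
    have h1 := mul_le_mul_of_nonneg_right (pow_le_pow_left₀ hl0.le hsmall A) hT0.le
    refine le_trans (le_of_eq ?_) h1
    rw [hT]
    field_simp
  refine le_trans ?_ (le_add_of_nonneg_right (by positivity))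
  have hsub : fewPairs X ⊆ Icc 1 ⌊T⌋₊ ∪ largeError (A + 1) X := by
    intro n hn
    rw [fewPairs, mem_filter, mem_Icc] at hn
    obtain ⟨⟨hn1, hnX⟩, heven, hfew⟩ := hn
    rw [mem_union, mem_Icc, largeError, mem_filter, mem_Icc, ← hl]
    rcases le_or_gt (n : ℝ) T with hle | hgt
    · exact Or.inl ⟨hn1, Nat.le_floor hle⟩
    refine Or.inr ⟨⟨hn1, hnX⟩, ?_⟩
    have h1 := pairW_le hn1 hnX
    rw [← hl] at h1
    have h2 : 32 * √(X : ℝ) * l ^ 2 ≤ T := by
      rw [hT, le_div_iff₀ (by positivity)]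
      have hp := hl ▸ hpow X (by exact_mod_cast (show 1 ≤ X by omega))
      refine le_of_mul_le_mul_right ?_ hl0
      calc 32 * √(X : ℝ) * l ^ 2 * l ^ A * l = 32 * √(X : ℝ) * l ^ (A + 3) := by ring
        _ ≤ 32 * √(X : ℝ) * (K * √(X : ℝ)) := mul_le_mul_of_nonneg_left hp (by positivity)
        _ = X * (32 * K) := by
            rw [show 32 * √(X : ℝ) * (K * √(X : ℝ)) = √(X : ℝ) * √(X : ℝ) * (32 * K) by ring,
              Real.mul_self_sqrt (Nat.cast_nonneg X)]
        _ ≤ X * l := mul_le_mul_of_nonneg_left (by linarith) (Nat.cast_nonneg X)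
    have h3 := mul_le_mul_of_nonneg_right (half_le_pairSeries (by omega) heven)
      (Nat.cast_nonneg (α := ℝ) n)
    have h4 : (n : ℝ) / l ^ (A + 1) ≤ n / 5 := by
      refine div_le_div_of_nonneg_left (Nat.cast_nonneg n) (by norm_num) ?_
      exact le_trans (by linarith) (le_self_pow₀ (by linarith) (by omega))
    have h5 := neg_abs_le (pairW n - pairSeries n * n)
    linarith
  refine (Nat.cast_le.2 ((card_le_card hsub).trans (card_union_le _ _))).trans ?_
  rw [Nat.cast_add, Nat.card_Icc, Nat.add_sub_cancel, add_comm]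
  refine add_le_add ((h X hX).trans ?_) (Nat.floor_le hT0.le)
  rw [← hl, hT]
  refine mul_le_mul_of_nonneg_left (div_le_div_of_nonneg_left (Nat.cast_nonneg X) (by positivity)
    (pow_le_pow_right₀ (by linarith) (by omega))) hC.le

open scoped Classical in
/-- The even `n ≤ X` that are not the sum of two distinct primes. -/
def goldbachExceptions (X : ℕ) : Finset ℕ :=
  (Icc 1 X).filter fun n : ℕ => Even n ∧ ¬ ∃ p q : ℕ, p.Prime ∧ q.Prime ∧ p < q ∧ p + q = n

/-- **Almost all even numbers are sums of two distinct primes.** -/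
theorem exists_card_exceptions_le (A : ℕ) : ∃ C : ℝ, 0 < C ∧ ∀ X : ℕ, 2 ≤ X →
    ((goldbachExceptions X).card : ℝ) ≤ C * ((X : ℝ) / Real.log X ^ A) := by
  classical
  obtain ⟨C, hC, h⟩ := exists_card_fewPairs_le A
  obtain ⟨K, hK, hpow⟩ := ThreePrimes.exists_log_pow_le 2
  obtain ⟨K', hK', hpow'⟩ := ThreePrimes.exists_log_pow_le A
  obtain ⟨B, hB⟩ : ∃ B : ℕ, B = ⌈(8 * K) ^ 2⌉₊ := ⟨_, rfl⟩
  refine ⟨C + ((B : ℝ) + 1) * K', by positivity, fun X hX => ?_⟩
  have hl0 : 0 < Real.log X := Real.log_pos (by exact_mod_cast hX)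
  have hX1 : (1 : ℝ) ≤ X := by exact_mod_cast (show 1 ≤ X by omega)
  have hsub : goldbachExceptions X ⊆ fewPairs X ∪ range (B + 1) := by
    intro n hn
    rw [goldbachExceptions, mem_filter] at hn
    obtain ⟨hnX, heven, hno⟩ := hn
    rw [mem_union, fewPairs, mem_filter, mem_range]
    refine or_iff_not_imp_left.2 fun hnot => Nat.lt_succ_of_le ?_
    push Not at hnot
    have hcnt : goldbachCount n ≤ 1 := by
      refine card_le_one.2 fun x hx y hy => ?_
      rw [mem_filter, mem_Icc] at hx hy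
      by_contra hne
      rcases lt_trichotomy x (n - x) with hlt | heq | hgt
      · exact hno ⟨x, n - x, hx.2.1, hx.2.2, hlt, by omega⟩
      · rcases lt_trichotomy y (n - y) with hlt | heq' | hgt
        · exact hno ⟨y, n - y, hy.2.1, hy.2.2, hlt, by omega⟩
        · omega
        · exact hno ⟨n - y, y, hy.2.2, hy.2.1, hgt, by omega⟩
      · exact hno ⟨n - x, x, hx.2.2, hx.2.1, hgt, by omega⟩
    have h1 := hnot hnX heven
    have hn1 : (1 : ℝ) ≤ n := by exact_mod_cast (mem_Icc.1 hnX).1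
    have h2 := mul_le_mul_of_nonneg_right (Nat.cast_le (α := ℝ).2 hcnt) (sq_nonneg (Real.log n))
    rw [Nat.cast_one, one_mul] at h2
    have h3 : √(n : ℝ) * √(n : ℝ) ≤ 8 * K * √(n : ℝ) := by
      rw [Real.mul_self_sqrt (Nat.cast_nonneg n)]
      have := hpow n hn1
      linarith
    have h4 : √(n : ℝ) ≤ 8 * K := le_of_mul_le_mul_right h3 (Real.sqrt_pos.2 (by linarith))
    have h5 := pow_le_pow_left₀ (Real.sqrt_nonneg _) h4 2
    rw [Real.sq_sqrt (Nat.cast_nonneg n)] at h5
    rw [hB]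
    exact_mod_cast h5.trans (Nat.le_ceil _)
  refine (Nat.cast_le.2 ((card_le_card hsub).trans (card_union_le _ _))).trans ?_
  rw [Nat.cast_add, card_range, add_mul]
  refine add_le_add (h X hX) ?_
  rw [Nat.cast_add_one, mul_assoc]
  refine le_mul_of_one_le_right (by positivity) ?_
  rw [mul_div_assoc', le_div_iff₀ (by positivity), one_mul]
  refine (hpow' X hX1).trans (mul_le_mul_of_nonneg_left ?_ hK'.le)
  rw [Real.sqrt_le_left (by positivity)]
  exact le_self_pow₀ hX1 two_ne_zero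

/-- **Primes in progressions of length three** beyond every bound. -/
theorem exists_prime_progression (B : ℕ) : ∃ p q r : ℕ,
    p.Prime ∧ q.Prime ∧ r.Prime ∧ B < q ∧ p < q ∧ q < r ∧ p + r = 2 * q := by
  classical
  obtain ⟨C, hC, h⟩ := exists_card_exceptions_le 3
  obtain ⟨K, hK, hpow⟩ := ThreePrimes.exists_log_pow_le 1
  obtain ⟨N, hN1, hN2⟩ : ∃ N : ℕ, Real.exp (20 * C + 1) ≤ N ∧ (10 * K * (B + 3)) ^ 2 ≤ (N : ℝ) :=
    ⟨⌈Real.exp (20 * C + 1) + (10 * K * (B + 3)) ^ 2⌉₊,
      le_trans (le_add_of_nonneg_right (sq_nonneg _)) (Nat.le_ceil _),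
      le_trans (le_add_of_nonneg_left (Real.exp_pos _).le) (Nat.le_ceil _)⟩
  by_contra hno
  push Not at hno
  have hN0 : (0 : ℝ) < N := lt_of_lt_of_le (Real.exp_pos _) hN1
  have hl : 20 * C + 1 ≤ Real.log N := (Real.le_log_iff_exp_le hN0).2 hN1
  obtain ⟨l, hldef⟩ : ∃ l, l = Real.log N := ⟨_, rfl⟩
  rw [← hldef] at hl
  have hl0 : 0 < l := by linarith
  have hN1' : 1 < N := by
    by_contra hle
    have : Real.log N ≤ 0 := Real.log_nonpos hN0.le (by exact_mod_cast not_lt.1 hle)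
    linarith
  have hsub : ((Icc 1 N).filter Nat.Prime).image (2 * ·) ⊆
      goldbachExceptions (2 * N) ∪ (range (B + 1)).image (2 * ·) := by
    intro m hm
    rw [mem_image] at hm
    obtain ⟨q, hq, rfl⟩ := hm
    rw [mem_filter, mem_Icc] at hq
    rw [mem_union, goldbachExceptions, mem_filter, mem_Icc, mem_image]
    by_cases hqB : q ≤ B
    · exact Or.inr ⟨q, mem_range.2 (Nat.lt_succ_of_le hqB), rfl⟩
    refine Or.inl ⟨⟨by omega, by omega⟩, even_two_mul q, fun ⟨p, r, hp, hr, hpr, hsum⟩ => ?_⟩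
    exact hno p q r hp hq.2 hr (by omega) (by omega) (by omega) hsum
  have hpi : (Nat.primeCounting N : ℝ) ≤
      C * ((2 * N : ℕ) / Real.log (2 * N : ℕ) ^ 3) + (B + 1) := by
    have h1 := (card_le_card hsub).trans (card_union_le _ _)
    rw [card_image_of_injective _ (mul_right_injective₀ two_ne_zero),
      card_image_of_injective _ (mul_right_injective₀ two_ne_zero), card_range] at h1
    have h2 : Nat.primeCounting N = ((Icc 1 N).filter Nat.Prime).card := by
      rw [Nat.primeCounting, Nat.primeCounting', Nat.count_eq_card_filter_range]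
      congr 1
      ext m
      simp only [mem_filter, mem_range, mem_Icc]
      exact ⟨fun hm => ⟨⟨hm.2.one_lt.le, by omega⟩, hm.2⟩, fun hm => ⟨by omega, hm.2⟩⟩
    have h3 := Nat.cast_le (α := ℝ).2 h1
    rw [← h2] at h3
    push_cast at h3
    have := h (2 * N) (by omega)
    push_cast at this ⊢
    linarith
  have hlow := (Chebyshev.psi_ge N).trans (Chebyshev.psi_le_primeCounting_mul_log N)
  rw [← hldef] at hlow
  have hlog2N : l ≤ Real.log (2 * N : ℕ) := by
    rw [hldef]
    exact Real.log_le_log hN0 (by push_cast; linarith)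
  have h1 : C * (((2 * N : ℕ) : ℝ) / Real.log (2 * N : ℕ) ^ 3) * l ≤ (N : ℝ) / 10 := by
    refine (mul_le_mul_of_nonneg_right (mul_le_mul_of_nonneg_left (div_le_div_of_nonneg_left
      (Nat.cast_nonneg _) (by positivity) (pow_le_pow_left₀ (by linarith) hlog2N 3)) hC.le)
      (by linarith)).trans ?_
    push_cast
    rw [show C * (2 * N / l ^ 3) * l = 2 * C * N / l ^ 2 by field_simp,
      div_le_iff₀ (by positivity)]
    have : 20 * C ≤ l ^ 2 := le_trans (by linarith) (le_self_pow₀ (by linarith) two_ne_zero)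
    have := mul_le_mul_of_nonneg_left this hN0.le
    linarith
  have h2 : ((B : ℝ) + 3) * l ≤ (N : ℝ) / 10 := by
    have hp := hpow N (by exact_mod_cast hN1'.le)
    rw [pow_one, ← hldef] at hp
    have hs : 10 * K * (B + 3) ≤ √(N : ℝ) := (Real.le_sqrt (by positivity) hN0.le).2 hN2
    have := mul_le_mul_of_nonneg_right hs (Real.sqrt_nonneg (N : ℝ))
    rw [Real.mul_self_sqrt hN0.le] at this
    have := mul_le_mul_of_nonneg_left hp (show 0 ≤ (B : ℝ) + 3 by positivity)
    linarith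
  have h3 : Real.log ((N : ℝ) + 1) ≤ 2 * l := by
    rw [hldef, two_mul, ← Real.log_mul hN0.ne' hN0.ne']
    refine Real.log_le_log (by linarith) ?_
    have : (2 : ℝ) ≤ N := by exact_mod_cast hN1'
    nlinarith
  have h4 := mul_le_mul_of_nonneg_right hpi (show 0 ≤ l by linarith)
  have h5 := mul_le_mul_of_nonneg_left Real.log_two_gt_d9.le hN0.le
  linarith

/-- The representations by three primes. -/
def threePrimeCount (N : ℕ) : ℕ := ((Icc 1 N ×ˢ Icc 1 N ×ˢ Icc 1 N).filter fun x =>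
  x.1.Prime ∧ x.2.1.Prime ∧ x.2.2.Prime ∧ x.1 + x.2.1 + x.2.2 = N).card

/-- **Many representations by three primes.** -/
theorem exists_threePrimeCount_ge : ∃ N₀ : ℕ, ∀ N : ℕ, N₀ ≤ N → Odd N →
    (N : ℝ) ^ 2 / (8 * Real.log N ^ 3) ≤ threePrimeCount N := by
  obtain ⟨C, hC, h⟩ := ThreePrimes.exists_asymptotic 1
  obtain ⟨K, hK, hpow⟩ := ThreePrimes.exists_log_pow_le 3
  refine ⟨max 2 (⌈Real.exp (8 * (C + 36 * K) + 1)⌉₊), fun N hN hodd => ?_⟩
  have hN2 : 2 ≤ N := le_trans (le_max_left _ _) hN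
  have hN1 : (1 : ℝ) ≤ N := by exact_mod_cast (show 1 ≤ N by omega)
  obtain ⟨l, hl⟩ : ∃ l, l = Real.log N := ⟨_, rfl⟩
  rw [← hl]
  have hbig : 8 * (C + 36 * K) + 1 ≤ l := by
    rw [hl, Real.le_log_iff_exp_le (by linarith)]
    exact (Nat.le_ceil _).trans (Nat.cast_le.2 (le_trans (le_max_right _ _) hN))
  have hl0 : 0 < l := by linarith
  have hΛ : ∀ n : ℕ, 0 ≤ Λ n := fun n => vonMangoldt_nonneg
  have hmax : ∀ n ∈ Icc 1 N, Λ n ≤ l := fun n hn => by
    rw [mem_Icc] at hn
    rw [hl]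
    exact vonMangoldt_le_log.trans
      (Real.log_le_log (Nat.cast_pos.2 hn.1) (Nat.cast_le.2 hn.2))
  have hsplit : triple (Λ ·) (Λ ·) (Λ ·) N ≤ triple powerPart (Λ ·) (Λ ·) N +
      triple (Λ ·) powerPart (Λ ·) N + triple (Λ ·) (Λ ·) powerPart N +
        threePrimeCount N * l ^ 3 := by
    simp only [triple, threePrimeCount, card_filter, sum_product, Nat.cast_sum, sum_mul,
      ← sum_add_distrib]
    refine sum_le_sum fun i hi => sum_le_sum fun j hj => sum_le_sum fun k hk => ?_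
    have e1 := mul_nonneg (mul_nonneg (ThreePrimes.powerPart_nonneg i) (hΛ j)) (hΛ k)
    have e2 := mul_nonneg (mul_nonneg (hΛ i) (ThreePrimes.powerPart_nonneg j)) (hΛ k)
    have e3 := mul_nonneg (mul_nonneg (hΛ i) (hΛ j)) (ThreePrimes.powerPart_nonneg k)
    by_cases hsum : i + j + k = N
    · simp only [hsum, and_true, if_true]
      have e4 : (0 : ℝ) ≤ (if i.Prime ∧ j.Prime ∧ k.Prime then 1 else 0 : ℕ) * l ^ 3 := by
        positivity
      by_cases hip : i.Prime
      · by_cases hjp : j.Prime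
        · by_cases hkp : k.Prime
          · rw [if_pos ⟨hip, hjp, hkp⟩, Nat.cast_one, one_mul]
            have := mul_le_mul (mul_le_mul (hmax i hi) (hmax j hj) (hΛ j) hl0.le)
              (hmax k hk) (hΛ k) (by positivity)
            rw [show l ^ 3 = l * l * l by ring]
            linarith
          · rw [show powerPart k = Λ k from if_neg hkp]
            linarith
        · rw [show powerPart j = Λ j from if_neg hjp]
          linarith
      · rw [show powerPart i = Λ i from if_neg hip]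
        linarith
    · simp [hsum]
  have hone : ∀ T : ℝ, T ≤ (∑ i ∈ Icc 1 N, powerPart i) * (∑ j ∈ Icc 1 N, Λ j) * l →
      T ≤ 12 * K * ((N : ℝ) ^ 2 / l) := by
    intro T hT
    refine hT.trans ?_
    calc (∑ i ∈ Icc 1 N, powerPart i) * (∑ j ∈ Icc 1 N, Λ j) * l
        ≤ (2 * √(N : ℝ) * l) * (6 * N) * l :=
          mul_le_mul_of_nonneg_right (mul_le_mul (hl ▸ ThreePrimes.sum_powerPart_le (by omega))
            (ThreePrimes.sum_vonMangoldt_le N) (sum_nonneg fun j _ => hΛ j) (by positivity))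
            hl0.le
      _ = 12 * N * √(N : ℝ) * (l ^ 3 / l) := by field_simp; ring
      _ ≤ 12 * N * √(N : ℝ) * (K * √(N : ℝ) / l) := mul_le_mul_of_nonneg_left
          (div_le_div_of_nonneg_right (hl ▸ hpow N hN1) hl0.le) (by positivity)
      _ = 12 * K * ((N : ℝ) * (√(N : ℝ) * √(N : ℝ)) / l) := by ring
      _ = _ := by rw [Real.mul_self_sqrt (Nat.cast_nonneg N), sq]
  have t1 : triple powerPart (Λ ·) (Λ ·) N ≤ 12 * K * ((N : ℝ) ^ 2 / l) :=
    hone _ (ThreePrimes.triple_le ThreePrimes.powerPart_nonneg hΛ hl0.le hmax)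
  have t2 : triple (Λ ·) powerPart (Λ ·) N ≤ 12 * K * ((N : ℝ) ^ 2 / l) :=
    hone _ ((ThreePrimes.triple_le hΛ ThreePrimes.powerPart_nonneg hl0.le hmax).trans
      (le_of_eq (by ring)))
  have t3 : triple (Λ ·) (Λ ·) powerPart N ≤ 12 * K * ((N : ℝ) ^ 2 / l) := by
    rw [ThreePrimes.triple_swap]
    exact hone _ ((ThreePrimes.triple_le hΛ ThreePrimes.powerPart_nonneg hl0.le hmax).trans
      (le_of_eq (by ring)))
  have hlow := (abs_le.1 (h N hN2)).1
  rw [pow_one, ← hl] at hlow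
  have hS := mul_le_mul_of_nonneg_right (ThreePrimes.half_le_singularSeries hodd)
    (show 0 ≤ (N : ℝ) ^ 2 / 2 by positivity)
  have h8 : (C + 36 * K) * ((N : ℝ) ^ 2 / l) ≤ (N : ℝ) ^ 2 / 8 := by
    rw [mul_div_assoc', div_le_iff₀ hl0]
    have := mul_le_mul_of_nonneg_left (show 8 * (C + 36 * K) ≤ l by linarith)
      (show 0 ≤ (N : ℝ) ^ 2 / 8 by positivity)
    linarith
  rw [div_le_iff₀ (by positivity)]
  linarith

end FA.AlmostGoldbach
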