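import Fermat.Agent.ThreePrimes.Singular

/-!
# The singular series for two primes

`𝔖₂ n = ∑_q μ q ² c_q (n) / φ q ²`: the tail after `P` is `O (d (n) (P + 1) ^ (-1/4))`, and the
series is at least `1/2` for even `n ≠ 0`.
-/

set_option autoImplicit false

noncomputable section

namespace FA.AlmostGoldbach

open Finset ArithmeticFunction
open FA.ThreePrimes (moebiusR ramanujan divPart)

/-- The terms. -/
def pairTerm (n : ℕ) : ArithmeticFunction ℝ :=
  ⟨fun q => moebiusR q ^ 2 * ramanujan n q / (q.totient : ℝ) ^ 2, by simp⟩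

theorem pairTerm_apply (n q : ℕ) :
    pairTerm n q = moebiusR q ^ 2 * ramanujan n q / (q.totient : ℝ) ^ 2 := rfl

theorem pairTerm_isMultiplicative (n : ℕ) : (pairTerm n).IsMultiplicative := by
  have hc : (ramanujan n).IsMultiplicative :=
    ThreePrimes.moebiusR_isMultiplicative.mul (ThreePrimes.divPart_isMultiplicative n)
  refine ⟨?_, fun {a b} h => ?_⟩
  · rw [pairTerm_apply, ThreePrimes.moebiusR_isMultiplicative.1, hc.1]
    simp
  · simp only [pairTerm_apply]
    rw [ThreePrimes.moebiusR_isMultiplicative.2 h, hc.2 h, Nat.totient_mul h, Nat.cast_mul]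
    ring

theorem abs_ramanujan_le_sum {n : ℕ} (hn : n ≠ 0) (q : ℕ) :
    |ramanujan n q| ≤ ∑ d ∈ n.divisors, if d ∣ q then (d : ℝ) else 0 := by
  rw [ramanujan, mul_apply, Nat.sum_divisorsAntidiagonal' (fun x y => moebiusR x * divPart n y)]
  refine (abs_sum_le_sum_abs _ _).trans ((sum_le_sum (g := fun d : ℕ =>
    if d ∣ n then (d : ℝ) else 0) fun d _ => ?_).trans ?_)
  · rw [abs_mul, ThreePrimes.divPart_apply]
    split_ifs
    · rw [Nat.abs_cast]
      exact mul_le_of_le_one_left (Nat.cast_nonneg d) (ThreePrimes.abs_moebiusR_le _)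
    · simp
  · rw [← sum_filter, ← sum_filter]
    refine sum_le_sum_of_subset_of_nonneg (fun d hd => ?_) fun d _ _ => Nat.cast_nonneg d
    rw [mem_filter, Nat.mem_divisors] at hd ⊢
    exact ⟨⟨hd.2, hn⟩, hd.1.1⟩

theorem abs_pairTerm_le {n : ℕ} (hn : n ≠ 0) (q : ℕ) :
    |pairTerm n q| ≤ ∑ d ∈ n.divisors, if d ∣ q then (d : ℝ) / (q.totient : ℝ) ^ 2 else 0 := by
  rw [pairTerm_apply, abs_div, abs_mul, abs_pow, abs_pow, Nat.abs_cast]
  refine (div_le_div_of_nonneg_right ((mul_le_of_le_one_left (abs_nonneg _)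
    (pow_le_one₀ (abs_nonneg _) (ThreePrimes.abs_moebiusR_le q))).trans
      (abs_ramanujan_le_sum hn q)) (sq_nonneg _)).trans (le_of_eq ?_)
  rw [sum_div]
  exact sum_congr rfl fun d _ => by split_ifs <;> simp

/-- The constant of the tail. -/
def pairConst : ℝ := 16 * ∑' m : ℕ, (m : ℝ) ^ (-(5 / 4) : ℝ)

theorem pairConst_nonneg : 0 ≤ pairConst :=
  mul_nonneg (by norm_num) (tsum_nonneg fun m => by positivity)

/-- **The tail**, in finite form. -/
theorem sum_abs_pairTerm_le {n : ℕ} (hn : n ≠ 0) (P Q : ℕ) :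
    ∑ q ∈ Ioc P Q, |pairTerm n q| ≤
      pairConst * n.divisors.card * ((P + 1 : ℕ) : ℝ) ^ (-(1 / 4) : ℝ) := by
  refine (sum_le_sum fun q _ => abs_pairTerm_le hn q).trans ?_
  rw [sum_comm]
  refine (sum_le_card_nsmul _ _ (pairConst * ((P + 1 : ℕ) : ℝ) ^ (-(1 / 4) : ℝ))
    fun d hd => ?_).trans (le_of_eq (by rw [nsmul_eq_mul]; ring))
  have hd0 : 0 < d := Nat.pos_of_mem_divisors hd
  have hdr : (0 : ℝ) < d := Nat.cast_pos.2 hd0
  rw [← sum_filter]
  obtain ⟨T, hT⟩ : ∃ T, T = (range (Q + 1)).filter fun m => P < d * m ∧ d * m ≤ Q := ⟨_, rfl⟩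
  have hset : (Ioc P Q).filter (d ∣ ·) = T.image (d * ·) := by
    ext q
    simp only [hT, mem_filter, mem_Ioc, mem_image, mem_range]
    constructor
    · rintro ⟨⟨h1, h2⟩, m, rfl⟩
      exact ⟨m, ⟨Nat.lt_succ_of_le ((Nat.le_mul_of_pos_left m hd0).trans h2), h1, h2⟩, rfl⟩
    · rintro ⟨m, ⟨-, h1, h2⟩, rfl⟩
      exact ⟨⟨h1, h2⟩, dvd_mul_right d m⟩
  rw [hset, sum_image fun x _ y _ h => Nat.eq_of_mul_eq_mul_left hd0 h]
  obtain ⟨Z, hZ⟩ : ∃ Z : ℝ, Z = ((P + 1 : ℕ) : ℝ) ^ (-(1 / 4) : ℝ) := ⟨_, rfl⟩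
  rw [← hZ]
  refine (sum_le_sum (g := fun m : ℕ => 16 * Z * (m : ℝ) ^ (-(5 / 4) : ℝ))
    fun m hm => ?_).trans ?_
  · rw [hT, mem_filter] at hm
    have hm0 : 0 < m := Nat.pos_of_ne_zero fun h => by rw [h, mul_zero] at hm; omega
    have hmr : (0 : ℝ) < m := Nat.cast_pos.2 hm0
    have hφd : (0 : ℝ) < d.totient := Nat.cast_pos.2 (Nat.totient_pos.2 hd0)
    have hφm : (0 : ℝ) < m.totient := Nat.cast_pos.2 (Nat.totient_pos.2 hm0)
    have h1 : (d : ℝ) / ((d * m).totient : ℝ) ^ 2 ≤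
        d * ((1 / (d.totient : ℝ) ^ 2) * (1 / (m.totient : ℝ) ^ 2)) := by
      rw [one_div_mul_one_div, ← mul_pow, mul_one_div]
      refine div_le_div_of_nonneg_left hdr.le (by positivity)
        (pow_le_pow_left₀ (by positivity) ?_ 2)
      exact_mod_cast Nat.totient_super_multiplicative d m
    refine h1.trans ((mul_le_mul_of_nonneg_left (mul_le_mul (ThreePrimes.inv_totient_sq_le hd0)
      (ThreePrimes.inv_totient_sq_le hm0) (by positivity) (by positivity)) hdr.le).trans ?_)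
    have h2 : (m : ℝ) ^ (-(1 / 4) : ℝ) * (d : ℝ) ^ (-(1 / 4) : ℝ) ≤ Z := by
      rw [hZ, ← Real.mul_rpow hmr.le hdr.le, mul_comm (m : ℝ)]
      refine Real.rpow_le_rpow_of_nonpos (Nat.cast_pos.2 (Nat.succ_pos P)) ?_ (by norm_num)
      exact_mod_cast hm.2.1
    have h3 : (d : ℝ) * (d : ℝ) ^ (-(3 / 2) : ℝ) ≤ (d : ℝ) ^ (-(1 / 4) : ℝ) := by
      nth_rewrite 1 [← Real.rpow_one (d : ℝ)]
      rw [← Real.rpow_add hdr]
      exact Real.rpow_le_rpow_of_exponent_le (by exact_mod_cast hd0) (by norm_num)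
    rw [show (-(3 / 2) : ℝ) = -(1 / 4) + -(5 / 4) by norm_num, Real.rpow_add hmr]
    rw [show (-(3 / 2) : ℝ) = -(1 / 4) + -(5 / 4) by norm_num] at h3
    calc (d : ℝ) * (4 * (d : ℝ) ^ (-(1 / 4) + -(5 / 4) : ℝ) *
          (4 * ((m : ℝ) ^ (-(1 / 4) : ℝ) * (m : ℝ) ^ (-(5 / 4) : ℝ))))
        = 16 * ((m : ℝ) ^ (-(1 / 4) : ℝ) * ((d : ℝ) * (d : ℝ) ^ (-(1 / 4) + -(5 / 4) : ℝ))) *
            (m : ℝ) ^ (-(5 / 4) : ℝ) := by ring
      _ ≤ _ := by
          refine mul_le_mul_of_nonneg_right (mul_le_mul_of_nonneg_left ?_ (by norm_num))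
            (by positivity)
          exact (mul_le_mul_of_nonneg_left h3 (by positivity)).trans h2
  · rw [← mul_sum, pairConst, mul_right_comm]
    refine mul_le_mul_of_nonneg_right ?_ (hZ ▸ by positivity)
    exact mul_le_mul_of_nonneg_left (Summable.sum_le_tsum _ (fun i _ => by positivity)
      (Real.summable_nat_rpow.2 (by norm_num))) (by norm_num)

theorem summable_pair {n : ℕ} (hn : n ≠ 0) : Summable fun q => ‖pairTerm n q‖ := by
  refine summable_of_sum_range_le (c := pairConst * n.divisors.card) (fun q => norm_nonneg _)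
    fun Q => ?_
  have h := sum_abs_pairTerm_le hn 0 Q
  rw [Nat.cast_one, Real.one_rpow, mul_one] at h
  refine le_trans ?_ h
  rw [← sum_filter_ne_zero]
  refine sum_le_sum_of_subset_of_nonneg (fun q hq => ?_) fun q _ _ => abs_nonneg _
  rw [mem_filter, mem_range] at hq
  rw [mem_Ioc]
  refine ⟨Nat.pos_of_ne_zero ?_, hq.1.le⟩
  rintro rfl
  simp at hq

/-- The singular series. -/
def pairSeries (n : ℕ) : ℝ := ∑' q, pairTerm n q

theorem abs_pairSeries_sub_le {n : ℕ} (hn : n ≠ 0) (P : ℕ) :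
    |pairSeries n - ∑ q ∈ Icc 1 P, pairTerm n q| ≤
      pairConst * n.divisors.card * ((P + 1 : ℕ) : ℝ) ^ (-(1 / 4) : ℝ) := by
  have h0 : ∑ q ∈ Icc 1 P, pairTerm n q = ∑ q ∈ range (P + 1), pairTerm n q := by
    refine sum_subset (fun q hq => ?_) fun q hq hq' => ?_
    · rw [mem_Icc] at hq
      rw [mem_range]
      omega
    · rw [mem_range] at hq
      rw [mem_Icc] at hq'
      obtain rfl : q = 0 := by omega
      simp
  have hsum : Summable fun q => pairTerm n q := (summable_pair hn).of_norm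
  rw [h0, pairSeries, ← Summable.sum_add_tsum_nat_add (P + 1) hsum, add_sub_cancel_left,
    ← Real.norm_eq_abs]
  refine (norm_tsum_le_tsum_norm ((summable_nat_add_iff (f := fun q => ‖pairTerm n q‖) (P + 1)).2
    (summable_pair hn))).trans (Real.tsum_le_of_sum_range_le (fun i => norm_nonneg _) fun Q => ?_)
  refine le_trans (le_of_eq ?_) (sum_abs_pairTerm_le hn P (P + Q))
  rw [show Ioc P (P + Q) = Ico (P + 1) (P + Q + 1) by ext; simp, sum_Ico_eq_sum_range,
    show P + Q + 1 - (P + 1) = Q by omega]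
  exact sum_congr rfl fun i _ => by rw [Real.norm_eq_abs, add_comm i]

theorem abs_pairSeries_le {n : ℕ} (hn : n ≠ 0) :
    |pairSeries n| ≤ pairConst * n.divisors.card := by
  simpa using abs_pairSeries_sub_le hn 0

theorem telescope_le_pairFactor {n : ℕ} (hn : Even n) {p : ℕ} (hp : p.Prime) :
    ThreePrimes.telescope p ≤ 1 + pairTerm n p := by
  rw [pairTerm_apply, ThreePrimes.ramanujan_prime n hp, moebiusR, intCoe_apply,
    moebius_apply_prime hp, Nat.totient_prime hp, Nat.cast_sub hp.one_lt.le]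
  rcases lt_or_ge p 3 with h | h
  · obtain rfl : p = 2 := by have := hp.two_le; omega
    rw [if_pos (even_iff_two_dvd.1 hn)]
    norm_num [ThreePrimes.telescope]
  · have h3 : (3 : ℝ) ≤ p := by exact_mod_cast h
    rw [ThreePrimes.telescope, if_neg (by omega)]
    have : 0 ≤ 1 / ((p : ℝ) - 1) ^ 2 := by positivity
    split_ifs
    · push_cast
      have : (0 : ℝ) ≤ (-1 : ℝ) ^ 2 * ((p : ℝ) - 1) / ((p : ℝ) - 1) ^ 2 :=
        div_nonneg (mul_nonneg (sq_nonneg _) (by linarith)) (sq_nonneg _)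
      linarith
    · push_cast
      rw [neg_one_sq, one_mul, neg_div]
      linarith

/-- **At least `1/2` for even `n`.** -/
theorem half_le_pairSeries {n : ℕ} (hn0 : n ≠ 0) (hn : Even n) : 1 / 2 ≤ pairSeries n := by
  refine ge_of_tendsto ((pairTerm_isMultiplicative n).eulerProduct (summable_pair hn0))
    (Filter.Eventually.of_forall fun k => ?_)
  refine (ThreePrimes.half_le_prod_telescope k).trans ?_
  refine le_trans (prod_le_prod_of_subset_of_le_one (s := k.primesBelow)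
    (fun p hp => (mem_filter.1 hp).1) (fun m _ => (ThreePrimes.telescope_bounds m).1.le)
    fun m _ _ => (ThreePrimes.telescope_bounds m).2) ?_
  refine prod_le_prod (fun m _ => (ThreePrimes.telescope_bounds m).1.le) fun p hp => ?_
  rw [Nat.mem_primesBelow] at hp
  rw [tsum_eq_sum (s := range 2) fun e he => ?_]
  · simp [sum_range_succ, (pairTerm_isMultiplicative n).1]
    exact telescope_le_pairFactor hn hp.2
  · rw [mem_range] at he
    rw [pairTerm_apply, moebiusR, intCoe_apply, moebius_apply_prime_pow hp.2 (by omega),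
      if_neg (by omega)]
    simp

end FA.AlmostGoldbach
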